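import Mathlib

/-!
# S48, piece INT / DIV (helper151): linear algebra core

A complex solution of a (possibly infinite) homogeneous linear system with INTEGER coefficients
in finitely many unknowns is a complex linear combination of INTEGER solutions.
Also: division of power series with integer coefficients by one with constant coefficient `1`.
-/

set_option autoImplicit false

noncomputable section

namespace Fermat.Agent.S48.H151

open Finset

/-- Rational solutions: coordinates with respect to a `ℚ`-basis of `ℂ`. -/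
theorem exists_rat_solutions {J : Type*} [Fintype J] {E : Type*}
    (a : E → J → ℤ) (X : J → ℂ) (h : ∀ e, ∑ j, (a e j : ℂ) * X j = 0) :
    ∃ (κ : Type) (T : Finset κ) (y : κ → J → ℚ) (β : κ → ℂ),
      (∀ k e, ∑ j, (a e j : ℚ) * y k j = 0) ∧ ∀ j, X j = ∑ k ∈ T, β k * (y k j : ℂ) := by
  classical
  let b := Module.Basis.ofVectorSpace ℚ ℂ
  refine ⟨_, Finset.univ.biUnion fun j => (b.repr (X j)).support,
    fun k j => b.repr (X j) k, fun k => b k, fun k e => ?_, fun j => ?_⟩
  · have h1 : b.repr (∑ j, ((a e j : ℤ) : ℚ) • X j) = 0 := by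
      have : (∑ j, ((a e j : ℤ) : ℚ) • X j) = 0 := by
        rw [← h e]
        refine Finset.sum_congr rfl fun j _ => ?_
        rw [Rat.smul_def]; push_cast; rfl
      rw [this, map_zero]
    have h2 := congrArg (fun v => v k) h1
    simpa [map_sum, Finsupp.coe_finsetSum, Finset.sum_apply] using h2
  · have h1 := b.linearCombination_repr (X j)
    rw [Finsupp.linearCombination_apply] at h1
    rw [Finsupp.sum_of_support_subset (s := Finset.univ.biUnion fun j => (b.repr (X j)).support)
      _ (Finset.subset_biUnion_of_mem (fun j => (b.repr (X j)).support) (Finset.mem_univ j))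
      _ (fun i _ => by simp)] at h1
    rw [← h1]
    refine Finset.sum_congr rfl fun k _ => ?_
    rw [Rat.smul_def, mul_comm]

/-- **Integer solutions.**  A complex solution `X` of the homogeneous system with integer matrix
`a` is a finite complex combination of integer solutions. -/
theorem exists_int_solutions {J : Type*} [Fintype J] {E : Type*}
    (a : E → J → ℤ) (X : J → ℂ) (h : ∀ e, ∑ j, (a e j : ℂ) * X j = 0) :
    ∃ (κ : Type) (T : Finset κ) (x : κ → J → ℤ) (lam : κ → ℂ),
      (∀ k e, ∑ j, a e j * x k j = 0) ∧ ∀ j, X j = ∑ k ∈ T, lam k * (x k j : ℂ) := by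
  classical
  obtain ⟨κ, T, y, β, hy, hX⟩ := exists_rat_solutions a X h
  -- common denominator
  let D : κ → ℕ := fun k => ∏ j, (y k j).den
  have hD : ∀ k, (D k : ℚ) ≠ 0 := fun k => by
    have : D k ≠ 0 := Finset.prod_ne_zero_iff.mpr fun j _ => (y k j).den_ne_zero
    exact_mod_cast this
  let x : κ → J → ℤ := fun k j => (y k j).num * ∏ j' ∈ Finset.univ.erase j, ((y k j').den : ℤ)
  have hx : ∀ k j, ((x k j : ℤ) : ℚ) = y k j * (D k : ℚ) := by
    intro k j
    have h1 : (D k : ℚ) = ((y k j).den : ℚ) * ∏ j' ∈ Finset.univ.erase j, ((y k j').den : ℚ) := by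
      simp only [D]
      push_cast
      exact (Finset.mul_prod_erase Finset.univ (fun i => ((y k i).den : ℚ)) (Finset.mem_univ j)).symm
    rw [h1, ← mul_assoc, Rat.mul_den_eq_num]
    simp only [x]
    push_cast
    rfl
  refine ⟨κ, T, x, fun k => β k / (D k : ℂ), fun k e => ?_, fun j => ?_⟩
  · have : ((∑ j, a e j * x k j : ℤ) : ℚ) = 0 := by
      push_cast
      simp only [hx, ← mul_assoc]
      rw [← Finset.sum_mul, hy k e, zero_mul]
    exact_mod_cast this
  · rw [hX j]
    refine Finset.sum_congr rfl fun k _ => ?_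
    have h1 : ((x k j : ℤ) : ℂ) = (y k j : ℂ) * (D k : ℂ) := by
      have := congrArg (fun q : ℚ => (q : ℂ)) (hx k j)
      simpa using this
    have hD' : (D k : ℂ) ≠ 0 := by
      have := hD k
      exact_mod_cast this
    rw [h1]
    field_simp

/-- If `A * B = C` in `ℂ⟦X⟧`, where `B` and `C` have integer coefficients and `B` has constant
coefficient `1`, then `A` has integer coefficients. -/
theorem int_coeff_of_mul_eq {A B C : PowerSeries ℂ} (hAB : A * B = C)
    (hB : ∀ n, ∃ m : ℤ, PowerSeries.coeff n B = (m : ℂ)) (hB0 : PowerSeries.coeff 0 B = 1)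
    (hC : ∀ n, ∃ m : ℤ, PowerSeries.coeff n C = (m : ℂ)) :
    ∀ n, ∃ m : ℤ, PowerSeries.coeff n A = (m : ℂ) := by
  choose b hb using hB
  choose c hc using hC
  let Bz : PowerSeries ℤ := PowerSeries.mk b
  let Cz : PowerSeries ℤ := PowerSeries.mk c
  have hBz : PowerSeries.map (Int.castRingHom ℂ) Bz = B := by
    ext n; simp [Bz, hb]
  have hCz : PowerSeries.map (Int.castRingHom ℂ) Cz = C := by
    ext n; simp [Cz, hc]
  have hb0 : b 0 = 1 := by
    have := hb 0
    rw [hB0] at this
    exact_mod_cast this.symm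
  have hunit : IsUnit Bz := by
    rw [PowerSeries.isUnit_iff_constantCoeff]
    simp [Bz, hb0]
  obtain ⟨w, hw⟩ := hunit.exists_right_inv
  have hA : A = PowerSeries.map (Int.castRingHom ℂ) (Cz * w) := by
    have h1 : B * PowerSeries.map (Int.castRingHom ℂ) w = 1 := by
      rw [← hBz, ← map_mul, hw, map_one]
    calc A = A * (B * PowerSeries.map (Int.castRingHom ℂ) w) := by rw [h1, mul_one]
      _ = C * PowerSeries.map (Int.castRingHom ℂ) w := by rw [← mul_assoc, hAB]
      _ = PowerSeries.map (Int.castRingHom ℂ) (Cz * w) := by rw [map_mul, hCz]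
  intro n
  refine ⟨PowerSeries.coeff n (Cz * w), ?_⟩
  rw [hA, PowerSeries.coeff_map]
  rfl

end Fermat.Agent.S48.H151
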