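import Fermat.Agent.S48.H151.DivBasic
import Fermat.Agent.S48.H151.DivLin

/-!
# S48, piece INT / DIV (helper151)

`div : INT.DivStatement` : an integral structure of `S₂(Γ₁(M))` gives an integral structure of
`S₁(Γ₁(M))` (`8 ∣ M`), given the two auxiliary weight-one forms `G₁, G₂` (AUX) and the division
statement at the level of functions (DIVF).
-/

set_option autoImplicit false

open CongruenceSubgroup UpperHalfPlane ModularFormClass
open scoped MatrixGroups ModularForm Manifold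

noncomputable section

namespace Fermat.Agent.S48.H151

open Fermat.Agent.S48 Fermat.Agent.S48.INT

variable {k k₁ k₂ : ℤ} {M : ℕ}

/-- Multiplication by a modular form, as a linear map on cusp forms. -/
def mulCFL (g : ModularForm (Gamma1 M) k₂) :
    CuspForm (Gamma1 M) k₁ →ₗ[ℂ] CuspForm (Gamma1 M) (k₁ + k₂) where
  toFun f := mulCF f g
  map_add' f f' := by
    apply DFunLike.coe_injective
    funext z
    show (f z + f' z) * g z = f z * g z + f' z * g z
    ring
  map_smul' c f := by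
    apply DFunLike.coe_injective
    funext z
    show (c * f z) * g z = c * (f z * g z)
    ring

@[simp] lemma mulCFL_apply (g : ModularForm (Gamma1 M) k₂) (f : CuspForm (Gamma1 M) k₁) :
    mulCFL g f = mulCF f g := rfl

/-- Evaluation at a point, as a linear form. -/
def evalL (M : ℕ) (k : ℤ) (z : ℍ) : CuspForm (Gamma1 M) k →ₗ[ℂ] ℂ where
  toFun f := f z
  map_add' _ _ := rfl
  map_smul' _ _ := rfl

@[simp] lemma evalL_apply (z : ℍ) (f : CuspForm (Gamma1 M) k) : evalL M k z f = f z := rfl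

lemma sum_smul_apply {ι : Type*} (s : Finset ι) (c : ι → ℂ) (H : ι → CuspForm (Gamma1 M) k)
    (z : ℍ) : (∑ i ∈ s, c i • H i) z = ∑ i ∈ s, c i * H i z := by
  show evalL M k z (∑ i ∈ s, c i • H i) = _
  rw [map_sum]
  exact Finset.sum_congr rfl fun i _ => by rw [map_smul, smul_eq_mul]; rfl

lemma qCoeff_sum_smul {ι : Type*} (s : Finset ι) (c : ι → ℂ) (H : ι → CuspForm (Gamma1 M) k)
    (n : ℕ) : qCoeff (⇑(∑ i ∈ s, c i • H i)) n = ∑ i ∈ s, c i * qCoeff (H i) n := by
  show qCoeffL M k n (∑ i ∈ s, c i • H i) = _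
  rw [map_sum]
  exact Finset.sum_congr rfl fun i _ => by rw [map_smul, smul_eq_mul]; rfl

lemma qCoeff_mulCF_sum_smul {ι : Type*} (s : Finset ι) (c : ι → ℂ)
    (H : ι → CuspForm (Gamma1 M) k₁) (g : ModularForm (Gamma1 M) k₂) (n : ℕ) :
    qCoeff (⇑(mulCF (∑ i ∈ s, c i • H i) g)) n = ∑ i ∈ s, c i * qCoeff (⇑(mulCF (H i) g)) n := by
  show ((qCoeffL M (k₁ + k₂) n).comp (mulCFL g)) (∑ i ∈ s, c i • H i) = _
  rw [map_sum]
  exact Finset.sum_congr rfl fun i _ => by rw [map_smul, smul_eq_mul]; rfl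

/-- Integrality of the `q`-coefficients of a product. -/
lemma isInt_qCoeff_mulCF (f : CuspForm (Gamma1 M) k₁) (g : ModularForm (Gamma1 M) k₂)
    (hf : ∀ n, ∃ m : ℤ, qCoeff f n = (m : ℂ)) (hg : ∀ n, ∃ m : ℤ, qCoeff g n = (m : ℂ)) (n : ℕ) :
    ∃ m : ℤ, qCoeff (⇑(mulCF f g)) n = (m : ℂ) := by
  choose a ha using hf
  choose b hb using hg
  refine ⟨∑ p ∈ Finset.HasAntidiagonal.antidiagonal n, a p.1 * b p.2, ?_⟩
  rw [qCoeff_mulCF]
  push_cast
  exact Finset.sum_congr rfl fun p _ => by rw [ha, hb]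

/-- Finite common expansion of two elements of the span of the integral forms. -/
lemma exists_common_family (S : Set (CuspForm (Gamma1 M) k))
    (u v : CuspForm (Gamma1 M) k) (hu : u ∈ Submodule.span ℂ S) (hv : v ∈ Submodule.span ℂ S) :
    ∃ (ι : Type) (_ : Fintype ι) (H : ι → CuspForm (Gamma1 M) k) (C D : ι → ℂ),
      (∀ i, H i ∈ S) ∧ u = ∑ i, C i • H i ∧ v = ∑ i, D i • H i := by
  rw [Submodule.mem_span_set'] at hu hv
  obtain ⟨n₁, c, h, rfl⟩ := hu
  obtain ⟨n₂, d, h', rfl⟩ := hv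
  refine ⟨Fin n₁ ⊕ Fin n₂, inferInstance, Sum.elim (fun i => (h i : CuspForm (Gamma1 M) k))
    (fun i => (h' i : CuspForm (Gamma1 M) k)), Sum.elim c 0, Sum.elim 0 d, ?_, ?_, ?_⟩
  · rintro (i | i)
    · exact (h i).2
    · exact (h' i).2
  · simp [Fintype.sum_sum_type]
  · simp [Fintype.sum_sum_type]

/-- **Piece DIV** of `INT` (exact Spec shape). -/
theorem div : INT.DivStatement := by
  classical
  intro haux hdivf M hM h8 hint
  obtain ⟨G₁, G₂, hG₁, hG₂, hG₁int, hG₁0, hG₂int, hG₂0, hcusp⟩ := haux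
  have hle := gamma1GL_le h8
  set G₁' : ModularForm (Gamma1 M) 1 := restrictMF hle G₁ with hG₁'
  set G₂' : ModularForm (Gamma1 M) 1 := restrictMF hle G₂ with hG₂'
  have hG₁'int : ∀ n, ∃ m : ℤ, qCoeff G₁' n = (m : ℂ) := hG₁int
  have hG₂'int : ∀ n, ∃ m : ℤ, qCoeff G₂' n = (m : ℂ) := hG₂int
  unfold INT.IntStr at hint ⊢
  rw [eq_top_iff]
  intro f _
  -- the two weight-two forms
  let u : CuspForm (Gamma1 M) 2 := mulCF f G₁'
  let v : CuspForm (Gamma1 M) 2 := mulCF f G₂'
  have hu : u ∈ Submodule.span ℂ {h : CuspForm (Gamma1 M) 2 | IsIntQ h} := by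
    rw [hint]; trivial
  have hv : v ∈ Submodule.span ℂ {h : CuspForm (Gamma1 M) 2 | IsIntQ h} := by
    rw [hint]; trivial
  obtain ⟨ι, _, H, C, D, hH, huC, hvD⟩ := exists_common_family _ u v hu hv
  -- the integer matrix of the linear system
  have hA2 : ∀ i n, ∃ m : ℤ, qCoeff (⇑(mulCF (H i) G₂')) n = (m : ℂ) := fun i n =>
    isInt_qCoeff_mulCF (H i) G₂' (hH i) hG₂'int n
  have hA1 : ∀ i n, ∃ m : ℤ, qCoeff (⇑(mulCF (H i) G₁')) n = (m : ℂ) := fun i n =>
    isInt_qCoeff_mulCF (H i) G₁' (hH i) hG₁'int n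
  choose A2 hA2 using hA2
  choose A1 hA1 using hA1
  let a : ℕ → ι ⊕ ι → ℤ := fun n => Sum.elim (fun i => A2 i n) (fun i => - A1 i n)
  let X : ι ⊕ ι → ℂ := Sum.elim C D
  have huv : mulCF u G₂' = mulCF v G₁' := by
    apply DFunLike.coe_injective
    funext z
    show (f z * G₁' z) * G₂' z = (f z * G₂' z) * G₁' z
    ring
  have hsys : ∀ n, ∑ j, (a n j : ℂ) * X j = 0 := by
    intro n
    have h1 := qCoeff_mulCF_sum_smul Finset.univ C H G₂' n
    have h2 := qCoeff_mulCF_sum_smul Finset.univ D H G₁' n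
    rw [← huC] at h1
    rw [← hvD] at h2
    rw [huv, h2] at h1
    simp only [hA1, hA2] at h1
    simp only [a, X, Fintype.sum_sum_type, Sum.elim_inl, Sum.elim_inr]
    push_cast
    have e1 : ∑ i, (A2 i n : ℂ) * C i = ∑ i, C i * (A2 i n : ℂ) :=
      Finset.sum_congr rfl fun i _ => mul_comm _ _
    have e2 : ∑ i, (-(A1 i n : ℂ)) * D i = -∑ i, D i * (A1 i n : ℂ) := by
      rw [← Finset.sum_neg_distrib]
      exact Finset.sum_congr rfl fun i _ => by ring
    rw [e1, e2]
    linear_combination -h1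
  obtain ⟨κ, T, x, lam, hx, hX⟩ := exists_int_solutions a X hsys
  -- the integral forms of weight two attached to the integer solutions
  let U : κ → CuspForm (Gamma1 M) 2 := fun k => ∑ i, (x k (Sum.inl i) : ℂ) • H i
  let V : κ → CuspForm (Gamma1 M) 2 := fun k => ∑ i, (x k (Sum.inr i) : ℂ) • H i
  have hUV : ∀ k, mulCF (U k) G₂' = mulCF (V k) G₁' := by
    intro k
    apply eq_of_qCoeff_eq
    intro n
    rw [qCoeff_mulCF_sum_smul, qCoeff_mulCF_sum_smul]
    simp only [hA1, hA2]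
    have h1 := hx k n
    simp only [a, Fintype.sum_sum_type, Sum.elim_inl, Sum.elim_inr] at h1
    have h2 := congrArg (fun m : ℤ => (m : ℂ)) h1
    simp only [Int.cast_add, Int.cast_sum, Int.cast_mul, Int.cast_neg, Int.cast_zero] at h2
    have e1 : ∑ i, (x k (Sum.inl i) : ℂ) * (A2 i n : ℂ) = ∑ i, (A2 i n : ℂ) * (x k (Sum.inl i) : ℂ) :=
      Finset.sum_congr rfl fun i _ => mul_comm _ _
    have e2 : ∑ i, (-(A1 i n : ℂ)) * (x k (Sum.inr i) : ℂ) =
        -∑ i, (x k (Sum.inr i) : ℂ) * (A1 i n : ℂ) := by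
      rw [← Finset.sum_neg_distrib]
      exact Finset.sum_congr rfl fun i _ => by ring
    rw [e2] at h2
    rw [e1]
    linear_combination h2
  have hUVz : ∀ k (z : ℍ), U k z * G₂ z = V k z * G₁ z := fun k z =>
    congrFun (congrArg DFunLike.coe (hUV k)) z
  have hF : ∀ k, ∃ F : CuspForm (Gamma1 M) 1, ∀ z : ℍ, F z * G₁ z = U k z := fun k =>
    hdivf G₁ G₂ hG₁ hG₂ hcusp M hM h8 (U k) (V k) (hUVz k)
  choose F hF using hF
  -- integrality of the quotients
  have hUint : ∀ k n, ∃ m : ℤ, qCoeff (U k) n = (m : ℂ) := by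
    intro k n
    have hHint : ∀ i, ∃ m : ℤ, qCoeff (H i) n = (m : ℂ) := fun i => hH i n
    choose hi hhi using hHint
    refine ⟨∑ i, x k (Sum.inl i) * hi i, ?_⟩
    rw [qCoeff_sum_smul]
    push_cast
    exact Finset.sum_congr rfl fun i _ => by rw [hhi]
  have hFint : ∀ k, IsIntQ (F k) := by
    intro k
    have hmul : (⇑(mulCF (F k) G₁') : ℍ → ℂ) = ⇑(U k) := funext fun z => hF k z
    have hAB : qExpansion 1 (F k) * qExpansion 1 G₁' = qExpansion 1 (U k) := by
      rw [← ModularForm.qExpansion_mul_coe one_pos (one_mem_strictPeriods_gamma1 M) (F k) G₁',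
        ← hmul, coe_mulCF]
    exact int_coeff_of_mul_eq hAB hG₁'int hG₁0 (hUint k)
  -- `f` is the combination of the quotients
  have hf : f = ∑ k ∈ T, lam k • F k := by
    apply DFunLike.coe_injective
    funext z
    have hz : f z * G₁ z = (∑ k ∈ T, lam k • F k) z * G₁ z := by
      have e1 : f z * G₁ z = u z := rfl
      rw [e1, huC, sum_smul_apply, sum_smul_apply, Finset.sum_mul]
      have e2 : ∀ k ∈ T, lam k * F k z * G₁ z = ∑ i, lam k * (x k (Sum.inl i) : ℂ) * H i z := by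
        intro k _
        rw [mul_assoc, hF k z]
        show lam k * (∑ i, (x k (Sum.inl i) : ℂ) • H i) z = _
        rw [sum_smul_apply, Finset.mul_sum]
        exact Finset.sum_congr rfl fun i _ => by ring
      rw [Finset.sum_congr rfl e2, Finset.sum_comm]
      refine Finset.sum_congr rfl fun i _ => ?_
      have e3 : C i = X (Sum.inl i) := rfl
      rw [e3, hX (Sum.inl i), Finset.sum_mul]
    exact mul_right_cancel₀ (hG₁ z) hz
  rw [hf]
  exact Submodule.sum_mem _ fun k _ => Submodule.smul_mem _ _ (Submodule.subset_span (hFint k))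

end Fermat.Agent.S48.H151
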