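import Mathlib
import Fermat.Agent.S48.INT.Spec
import Fermat.Prelude.Thm_UpperHalfPlane_eq_of_forall_qCoeff_eq

/-!
# S48, piece INT / DIV (helper151): analytic preliminaries

* `restrictMF` : restriction of the level along `Γ' ≤ Γ`;
* `mulCF` : cusp form times modular form (same level) is a cusp form;
* `q`-coefficients: linearity, multiplicativity, determination of a cusp form by its
  `q`-coefficients (level `Γ₁(M)`).
-/

set_option autoImplicit false

open CongruenceSubgroup UpperHalfPlane ModularFormClass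
open scoped MatrixGroups ModularForm Manifold

noncomputable section

namespace Fermat.Agent.S48.H151

variable {k k₁ k₂ : ℤ}

/-- Restriction of the level of a modular form. -/
def restrictMF {Γ Γ' : Subgroup (GL (Fin 2) ℝ)} (h : Γ' ≤ Γ) (f : ModularForm Γ k) :
    ModularForm Γ' k where
  toFun := f
  slash_action_eq' γ hγ := f.slash_action_eq' γ (h hγ)
  holo' := f.holo'
  bdd_at_cusps' hc := f.bdd_at_cusps' (hc.mono h)

@[simp] lemma restrictMF_apply {Γ Γ' : Subgroup (GL (Fin 2) ℝ)} (h : Γ' ≤ Γ)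
    (f : ModularForm Γ k) (z : ℍ) : restrictMF h f z = f z := rfl

lemma coe_restrictMF {Γ Γ' : Subgroup (GL (Fin 2) ℝ)} (h : Γ' ≤ Γ)
    (f : ModularForm Γ k) : (⇑(restrictMF h f) : ℍ → ℂ) = ⇑f := rfl

/-- Cusp form times modular form. -/
def mulCF {Γ : Subgroup (GL (Fin 2) ℝ)} [Γ.HasDetPlusMinusOne]
    (f : CuspForm Γ k₁) (g : ModularForm Γ k₂) : CuspForm Γ (k₁ + k₂) where
  toSlashInvariantForm := f.1.mul g.1
  holo' := f.holo'.mul g.holo'
  zero_at_cusps' hc γ hγ := by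
    simpa [ModularForm.mul_slash] using!
      ((f.zero_at_cusps' hc γ hγ).mul_boundedAtFilter (g.bdd_at_cusps' hc γ hγ)).smul _

lemma coe_mulCF {Γ : Subgroup (GL (Fin 2) ℝ)} [Γ.HasDetPlusMinusOne]
    (f : CuspForm Γ k₁) (g : ModularForm Γ k₂) : (⇑(mulCF f g) : ℍ → ℂ) = ⇑f * ⇑g := rfl

@[simp] lemma mulCF_apply {Γ : Subgroup (GL (Fin 2) ℝ)} [Γ.HasDetPlusMinusOne]
    (f : CuspForm Γ k₁) (g : ModularForm Γ k₂) (z : ℍ) : mulCF f g z = f z * g z := rfl

/-- `Γ₁(M) ≤ Γ₁(N)` for `N ∣ M`. -/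
lemma gamma1_le {N M : ℕ} (h : N ∣ M) : Gamma1 M ≤ Gamma1 N := by
  intro A hA
  rw [Gamma1_mem] at hA ⊢
  have key : ∀ a b : ℤ, ((a : ℤ) : ZMod M) = (b : ZMod M) → ((a : ℤ) : ZMod N) = (b : ZMod N) := by
    intro a b hab
    rw [ZMod.intCast_eq_intCast_iff_dvd_sub] at hab ⊢
    exact dvd_trans (Int.natCast_dvd_natCast.mpr h) hab
  refine ⟨?_, ?_, ?_⟩
  · have := key (A.1 0 0) 1 (by simpa using hA.1)
    simpa using this
  · have := key (A.1 1 1) 1 (by simpa using hA.2.1)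
    simpa using this
  · have := key (A.1 1 0) 0 (by simpa using hA.2.2)
    simpa using this

lemma gamma1GL_le {N M : ℕ} (h : N ∣ M) :
    ((Gamma1 M : Subgroup SL(2, ℤ)) : Subgroup (GL (Fin 2) ℝ)) ≤
      ((Gamma1 N : Subgroup SL(2, ℤ)) : Subgroup (GL (Fin 2) ℝ)) :=
  Subgroup.map_mono (gamma1_le h)

lemma one_mem_strictPeriods_gamma1 (M : ℕ) :
    (1 : ℝ) ∈ ((Gamma1 M : Subgroup SL(2, ℤ)) : Subgroup (GL (Fin 2) ℝ)).strictPeriods := by
  simp

section qCoeff

variable {M : ℕ}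

lemma qCoeff_add' (f g : CuspForm (Gamma1 M) k) (n : ℕ) :
    qCoeff (⇑(f + g)) n = qCoeff f n + qCoeff g n := by
  unfold qCoeff
  have := ModularForm.qExpansion_add one_pos (one_mem_strictPeriods_gamma1 M) f g
  rw [show (⇑(f + g) : ℍ → ℂ) = ⇑f + ⇑g from rfl, this, map_add]

lemma qCoeff_smul' (c : ℂ) (f : CuspForm (Gamma1 M) k) (n : ℕ) :
    qCoeff (⇑(c • f)) n = c * qCoeff f n := by
  unfold qCoeff
  have := ModularForm.qExpansion_smul one_pos (one_mem_strictPeriods_gamma1 M) c f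
  rw [show (⇑(c • f) : ℍ → ℂ) = c • ⇑f from rfl, this]
  simp

/-- The `n`-th `q`-coefficient as a linear form. -/
def qCoeffL (M : ℕ) (k : ℤ) (n : ℕ) : CuspForm (Gamma1 M) k →ₗ[ℂ] ℂ where
  toFun f := qCoeff f n
  map_add' f g := qCoeff_add' f g n
  map_smul' c f := by simpa using qCoeff_smul' c f n

@[simp] lemma qCoeffL_apply (n : ℕ) (f : CuspForm (Gamma1 M) k) :
    qCoeffL M k n f = qCoeff f n := rfl

lemma qCoeff_mulCF (f : CuspForm (Gamma1 M) k₁) (g : ModularForm (Gamma1 M) k₂) (n : ℕ) :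
    qCoeff (⇑(mulCF f g)) n = ∑ p ∈ Finset.HasAntidiagonal.antidiagonal n, qCoeff f p.1 * qCoeff g p.2 := by
  unfold qCoeff
  rw [coe_mulCF, ModularForm.qExpansion_mul_coe one_pos (one_mem_strictPeriods_gamma1 M) f g,
    PowerSeries.coeff_mul]

/-- A cusp form of level `Γ₁(M)` is determined by its `q`-coefficients. -/
lemma eq_of_qCoeff_eq (f g : CuspForm (Gamma1 M) k) (h : ∀ n, qCoeff f n = qCoeff g n) :
    f = g := by
  have hΓ := one_mem_strictPeriods_gamma1 M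
  have : Fact (IsCusp OnePoint.infty ((Gamma1 M : Subgroup SL(2, ℤ)) : Subgroup (GL (Fin 2) ℝ))) :=
    ⟨Subgroup.isCusp_of_mem_strictPeriods one_pos hΓ⟩
  have hfg : (⇑f : ℍ → ℂ) = ⇑g :=
    UpperHalfPlane.eq_of_forall_qCoeff_eq
      (SlashInvariantFormClass.periodic_comp_ofComplex f hΓ) (ModularFormClass.holo f)
      (ModularFormClass.bdd_at_infty f)
      (SlashInvariantFormClass.periodic_comp_ofComplex g hΓ) (ModularFormClass.holo g)
      (ModularFormClass.bdd_at_infty g) h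
  exact DFunLike.coe_injective hfg

end qCoeff

end Fermat.Agent.S48.H151
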