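import Mathlib
import Fermat.Agent.S20.Comb694.Index

/-!
# S48 / Tower A1 / A1-FF — the group index for `Γ ⊓ Γ₀(p)` (helper151)

Group-theoretic half of leaf R5 / N3 (exact degree `[ℚ̄·F1(M; p) : ℚ̄·F1(M)] = p + 1`).
GENERIC in the group: for every subgroup `Γ ≤ SL₂(ℤ)` containing a principal congruence subgroup
`Γ(N)` and every prime `p ∤ N`

* `relIndex_Gamma0_prime`  : `(Gamma0 p).relIndex Γ = p + 1`;
* `index_inf_Gamma0_prime` : `(Γ ⊓ Gamma0 p).index = (p + 1) * Γ.index`;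
* `card_quotient_inf_Gamma0_prime` :
    `Nat.card (SL(2, ℤ) ⧸ (Γ ⊓ Gamma0 p)) = (p + 1) * Nat.card (SL(2, ℤ) ⧸ Γ)`.

Ingredients: `Γ(N) ⊔ Γ(a) = ⊤` for coprime `N`, `a` (`Gamma_sup_Gamma_eq_top`; from `T ∈ Γ(N)Γ(a)`
and `SL2Z_generators`), the general lemma `relIndex_eq_index_of_sup_eq_top`, and the index of
`Γ₀(p)` (row S20, `Comb694.index_Gamma0`).
-/

set_option autoImplicit false

namespace Fermat.Agent.S48.H151

open Matrix MatrixGroups CongruenceSubgroup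

/-! ### A general lemma on relative indices -/

/-- If `N ≤ H` is normal in `G` and `K N = G`, then `[K : K ∩ H] = [G : H]`. -/
theorem relIndex_eq_index_of_sup_eq_top {G : Type*} [Group G] (H K N : Subgroup G) [N.Normal]
    (hN : N ≤ H) (hK : K ⊔ N = ⊤) : H.relIndex K = H.index := by
  have h1 : (H.map (QuotientGroup.mk' N)).comap (QuotientGroup.mk' N) = H := by
    rw [Subgroup.comap_map_eq, QuotientGroup.ker_mk', sup_eq_left.mpr hN]
  have h2 := Subgroup.relIndex_comap (H.map (QuotientGroup.mk' N)) (QuotientGroup.mk' N) K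
  rw [h1] at h2
  rw [h2, Subgroup.relIndex_map_map, QuotientGroup.ker_mk', sup_eq_left.mpr hN, hK,
    Subgroup.relIndex_top_right]

/-! ### `Γ(N) Γ(a) = SL₂(ℤ)` for coprime `N`, `a` -/

theorem T_mem_Gamma_sup_Gamma {N a : ℕ} (h : Nat.Coprime N a) :
    ModularGroup.T ∈ Gamma N ⊔ Gamma a := by
  have hco : IsCoprime (N : ℤ) (a : ℤ) := Nat.isCoprime_iff_coprime.mpr h
  obtain ⟨u, v, huv⟩ := hco
  have h1 : ModularGroup.T ^ (u * (N : ℤ)) ∈ Gamma N := by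
    have := ModularGroup_T_pow_mem_Gamma (N : ℤ) (u * N) (Dvd.intro_left u rfl)
    simpa using this
  have h2 : ModularGroup.T ^ (v * (a : ℤ)) ∈ Gamma a := by
    have := ModularGroup_T_pow_mem_Gamma (a : ℤ) (v * a) (Dvd.intro_left v rfl)
    simpa using this
  have h3 : ModularGroup.T = ModularGroup.T ^ (u * (N : ℤ)) * ModularGroup.T ^ (v * (a : ℤ)) := by
    rw [← _root_.zpow_add, huv, zpow_one]
  rw [h3]
  exact Subgroup.mul_mem_sup h1 h2

theorem S_pow_four : ModularGroup.S * ModularGroup.S * ModularGroup.S * ModularGroup.S = 1 := by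
  apply Subtype.ext
  simp only [Matrix.SpecialLinearGroup.coe_mul, ModularGroup.coe_S,
    Matrix.SpecialLinearGroup.coe_one]
  ext i j
  fin_cases i <;> fin_cases j <;> simp [Matrix.mul_apply, Fin.sum_univ_two]

theorem S_inv_eq_cube : (ModularGroup.S)⁻¹ = ModularGroup.S * ModularGroup.S * ModularGroup.S :=
  inv_eq_of_mul_eq_one_left S_pow_four

theorem S_cube_eq : ModularGroup.S * ModularGroup.S * ModularGroup.S =
    ModularGroup.T * (ModularGroup.S * ModularGroup.T *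
      (ModularGroup.S * ModularGroup.S * ModularGroup.S)) * ModularGroup.T := by
  apply Subtype.ext
  simp only [Matrix.SpecialLinearGroup.coe_mul, ModularGroup.coe_S, ModularGroup.coe_T]
  ext i j
  fin_cases i <;> fin_cases j <;> simp [Matrix.mul_apply, Fin.sum_univ_two]

theorem S_inv_eq : (ModularGroup.S)⁻¹ =
    ModularGroup.T * (ModularGroup.S * ModularGroup.T * (ModularGroup.S)⁻¹) * ModularGroup.T := by
  rw [S_inv_eq_cube]
  exact S_cube_eq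

/-- `Γ(N) Γ(a) = SL₂(ℤ)` for coprime `N`, `a`. -/
theorem Gamma_sup_Gamma_eq_top {N a : ℕ} (h : Nat.Coprime N a) : Gamma N ⊔ Gamma a = ⊤ := by
  have : (Gamma N).Normal := Gamma_normal N
  have : (Gamma a).Normal := Gamma_normal a
  have hn : (Gamma N ⊔ Gamma a).Normal := Subgroup.sup_normal _ _
  have hT := T_mem_Gamma_sup_Gamma h
  have hL : ModularGroup.S * ModularGroup.T * (ModularGroup.S)⁻¹ ∈ Gamma N ⊔ Gamma a :=
    hn.conj_mem _ hT _
  have hS : ModularGroup.S ∈ Gamma N ⊔ Gamma a := by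
    have h1 : (ModularGroup.S)⁻¹ ∈ Gamma N ⊔ Gamma a := by
      rw [S_inv_eq]
      exact Subgroup.mul_mem _ (Subgroup.mul_mem _ hT hL) hT
    simpa using Subgroup.inv_mem _ h1
  rw [eq_top_iff, ← SpecialLinearGroup.SL2Z_generators, Subgroup.closure_le]
  rintro x (rfl | rfl)
  · exact hS
  · exact hT

/-! ### The index -/

theorem Gamma_le_Gamma0 (a : ℕ) : Gamma a ≤ Gamma0 a := fun g hg => by
  rw [Gamma_mem] at hg
  rw [Gamma0_mem]
  exact hg.2.2.1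

/-- `[Γ : Γ ∩ Γ₀(a)] = [SL₂(ℤ) : Γ₀(a)]` for every `Γ ⊇ Γ(N)`, `gcd(N, a) = 1`. -/
theorem relIndex_Gamma0_of_coprime (Γ : Subgroup SL(2, ℤ)) {N a : ℕ} (hΓ : Gamma N ≤ Γ)
    (h : Nat.Coprime N a) : (Gamma0 a).relIndex Γ = (Gamma0 a).index := by
  have : (Gamma a).Normal := Gamma_normal a
  refine relIndex_eq_index_of_sup_eq_top (Gamma0 a) Γ (Gamma a) (Gamma_le_Gamma0 a) ?_
  rw [eq_top_iff, ← Gamma_sup_Gamma_eq_top h]
  exact sup_le_sup_right hΓ _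

theorem index_Gamma0_prime {p : ℕ} (hp : p.Prime) : (Gamma0 p).index = p + 1 := by
  rw [Fermat.Agent.S20.Comb694.index_Gamma0]
  have h := Fermat.Agent.S20.Comb694.dedekindPsi_prime_mul_of_not_dvd p 1 hp one_ne_zero
    (fun h1 => hp.one_lt.ne' (Nat.dvd_one.mp h1))
  rwa [mul_one, ModularCurve.dedekindPsi_one, mul_one] at h

/-- `[Γ : Γ ∩ Γ₀(p)] = p + 1` for every `Γ ⊇ Γ(N)` and every prime `p ∤ N`. -/
theorem relIndex_Gamma0_prime (Γ : Subgroup SL(2, ℤ)) {N p : ℕ} (hΓ : Gamma N ≤ Γ)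
    (hp : p.Prime) (hpN : ¬ p ∣ N) : (Gamma0 p).relIndex Γ = p + 1 := by
  rw [relIndex_Gamma0_of_coprime Γ hΓ
    ((Nat.Prime.coprime_iff_not_dvd hp).mpr hpN).symm, index_Gamma0_prime hp]

/-- `[SL₂(ℤ) : Γ ∩ Γ₀(p)] = (p + 1) [SL₂(ℤ) : Γ]`. -/
theorem index_inf_Gamma0_prime (Γ : Subgroup SL(2, ℤ)) {N p : ℕ} (hΓ : Gamma N ≤ Γ)
    (hp : p.Prime) (hpN : ¬ p ∣ N) : (Γ ⊓ Gamma0 p).index = (p + 1) * Γ.index := by
  rw [← Subgroup.relIndex_mul_index (inf_le_left : Γ ⊓ Gamma0 p ≤ Γ), inf_comm,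
    Subgroup.inf_relIndex_right, relIndex_Gamma0_prime Γ hΓ hp hpN]

/-- `#(SL₂(ℤ)/(Γ ∩ Γ₀(p))) = (p + 1) #(SL₂(ℤ)/Γ)`. -/
theorem card_quotient_inf_Gamma0_prime (Γ : Subgroup SL(2, ℤ)) {N p : ℕ} (hΓ : Gamma N ≤ Γ)
    (hp : p.Prime) (hpN : ¬ p ∣ N) :
    Nat.card (SL(2, ℤ) ⧸ (Γ ⊓ Gamma0 p)) = (p + 1) * Nat.card (SL(2, ℤ) ⧸ Γ) :=
  index_inf_Gamma0_prime Γ hΓ hp hpN

end Fermat.Agent.S48.H151
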